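import Mathlib
import Fermat.Agent.S55.LCBridge
import Fermat.Agent.CFT.PT.FinalPlug

/-!
# PROGRAM G (S56), block GW-Euler, node FIN: smoothness bridge

`M` a finite-dimensional `𝔽_p`-representation of `G_ℚ`, smooth for `S55.globalLevel T`.  The
hypotheses `hsm`, `hMur` of the frozen statement S55 (open stabilisers, unramified outside `T`)
follow from smoothness, hence all the smoothness statements of the S55 development are available
from `IsSmooth (globalLevel T) M` alone:

* `hsm_of_isSmooth`, `hMur_of_isSmooth`;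
* `isSmooth_dualTw_of_isSmooth`, `isSmooth_repZ_dualTw_of_isSmooth` (`p ∈ T`).
-/

set_option autoImplicit false

open CategoryTheory Module groupCohomology ExtCitation

namespace Fermat.Agent.TW.Euler.Fin

open Fermat.Agent.CFT Fermat.Agent.CFT.PT Fermat.Agent.S55

local notation "Qb" => AlgebraicClosure ℚ
local notation "GQ" => (AlgebraicClosure ℚ ≃ₐ[ℚ] AlgebraicClosure ℚ)

variable {p : ℕ} [Fact p.Prime] (T : Finset Nat.Primes) (M : Rep (ZMod p) GQ)

/-- Smooth for `globalLevel T` implies open stabilisers (hypothesis `hsm` of S55). -/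
theorem hsm_of_isSmooth (hM : IsSmooth (globalLevel T) M) :
    ∀ m : M, ∃ F : IntermediateField ℚ Qb, FiniteDimensional ℚ F ∧
      ∀ s ∈ F.fixingSubgroup, M.ρ s m = m := by
  intro m
  obtain ⟨N, ⟨F, -, hF, rfl⟩, h⟩ := hM m
  exact ⟨F, hF.1, h⟩

/-- Smooth for `globalLevel T` implies unramified outside `T` (hypothesis `hMur` of S55). -/
theorem hMur_of_isSmooth (hM : IsSmooth (globalLevel T) M) :
    ∀ q : Nat.Primes, q ∉ T → ∀ A : ValuationSubring Qb,
      A.LiesOverPrime (q : ℕ) → ∀ g ∈ A.inertiaSubgroupIn ℚ, M.ρ g = 1 := by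
  intro q hq A hA g hg
  refine LinearMap.ext fun m => ?_
  obtain ⟨N, ⟨F, -, hF, rfl⟩, h⟩ := hM m
  rw [Module.End.one_apply]
  exact h g (hF.2 q hq A hA hg)

variable [FiniteDimensional (ZMod p) M]

/-- The Tate-twisted dual of a smooth module is smooth (`p ∈ T`). -/
theorem isSmooth_dualTw_of_isSmooth (hpT : pPrime p ∈ T) (hM : IsSmooth (globalLevel T) M) :
    IsSmooth (globalLevel T) (dualTw p M) :=
  isSmooth_globalLevel_dualTwist T M hpT (hsm_of_isSmooth T M hM) (hMur_of_isSmooth T M hM)

/-- The `ℤ`-form of the Tate-twisted dual of a smooth module is smooth (`p ∈ T`). -/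
theorem isSmooth_repZ_dualTw_of_isSmooth (hpT : pPrime p ∈ T) (hM : IsSmooth (globalLevel T) M) :
    IsSmooth (globalLevel T) (repZ (dualTw p M)) :=
  (isSmooth_repZ_iff (globalLevel T) (dualTw p M)).2 (isSmooth_dualTw_of_isSmooth T M hpT hM)

end Fermat.Agent.TW.Euler.Fin
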