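import Mathlib
import Fermat.Agent.TW.Euler.Fin.Smooth
import Fermat.Agent.CFT.PT.ShaIdent
import Fermat.Agent.CFT.PT.PTInputsInst
import Fermat.Agent.CFT.HyperExt.ZResRes

/-!
# PROGRAM G (S56), block GW-Euler, node FIN: the local `H²` are finite

`p ∈ T`, `M` a finite-dimensional `𝔽_p`-representation of `G_ℚ` smooth for `globalLevel T`,
`q ∈ T`.  Then `H²(G_{ℚ_q}, M)` (level cohomology of `Res M` for `levelOf (primeLocalToGlobal q)`)
is finite: with `N = repZ M'`, `M' = dualTw p M`, it is identified with
`H²(G_q, Hom(Res N, ℚ̄_qˣ)) ≃ Ext²(Res N, ℚ̄_qˣ)` (`thetaLoc` of `PT/Loc2Ident.lean`, bijective by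
`shaIdentTheta_thetaLoc_bijective`; `divEquiv`), which local Tate duality
(`PT.local_duality`, `dual2` injective) embeds into `Hom(H⁰(G_q, Res N), ℤ/p)`.
-/

set_option autoImplicit false
set_option linter.style.haveILetI false
set_option linter.unusedSectionVars false

open CategoryTheory ExtCitation

namespace Fermat.Agent.TW.Euler.Fin

open Fermat.Agent.CFT Fermat.Agent.CFT.PT Fermat.Agent.S55 HExt

local notation "Qb" => AlgebraicClosure ℚ
local notation "GQ" => (AlgebraicClosure ℚ ≃ₐ[ℚ] AlgebraicClosure ℚ)

attribute [local instance 2000] Rep.hV2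

section Abstract

universe u v

variable {k : Type u} [CommRing k]

/-- The degree-`0` cohomology of a complex with finite degree-`0` term is finite. -/
theorem finite_H_zero (C : Cx.{u, v} k) [Finite (C.X 0)] : Finite (C.H 0) := by
  haveI : Finite ((Cx.sh C).X (0 + 1)) := ‹Finite (C.X 0)›
  haveI : Finite ((Cx.sh C).Z 0) :=
    Finite.of_injective (fun z : (Cx.sh C).Z 0 => z.1) Subtype.val_injective
  exact Finite.of_surjective _ (Cx.Hs.mkL_surjective (C := Cx.sh C) (n := 0))

end Abstract

variable (p : ℕ) [hp : Fact p.Prime] (T : Finset Nat.Primes) (hpT : pPrime p ∈ T)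
  (M : Rep (ZMod p) GQ) [FiniteDimensional (ZMod p) M]
  (hM : IsSmooth (globalLevel T) M)
  (hN : IsSmooth (globalLevel T) (repZ (dualTw p M)))

include hpT hM hN in
/-- `H²(G_{ℚ_q}, Res (repZ M))` is finite, cohomology of the LC complex. -/
theorem finite_cxH2_local_repZ (q : ↥T) :
    Finite ((LC.cx (((isSmooth_repZ_iff (globalLevel T) M).2 hM).res
      ((levelComap_global T).compat q))).H 2) := by
  -- the restricted resolution and local duality
  have hinj : Function.Injective
      (((zResR (repZ (dualTw p M)) hN).res ((levelComap_global T).compat q)).dual2 p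
        (isSmooth_primeUnitsRep q.1)
        (hpN_res (r := fun q : ↥T => primeLocalToGlobal q.1) p
          (nsmul_repZ_eq_zero p (dualTw p M)) q) (invLoc p q.1)) :=
    (zResR_res_dual_injective_iff (repZ (dualTw p M)) hN ((levelComap_global T).compat q)
      (isSmooth_primeUnitsRep q.1) p (nsmul_repZ_eq_zero p (dualTw p M)) (invLoc p q.1) 1 0
      rfl).2
      (local_duality p q.1 ⟨Rep.res (primeLocalToGlobal q.1) (repZ (dualTw p M)),
        hN.res ((levelComap_global T).compat q), nsmul_repZ_eq_zero p (dualTw p M)⟩).2.1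
  -- `H⁰(G_q, Res N)` is finite
  haveI : Finite (repZ (dualTw p M)) := inferInstance
  haveI : Finite ((LC.cx ((zResR (repZ (dualTw p M)) hN).res
      ((levelComap_global T).compat q)).smooth).X 0) :=
    inferInstanceAs (Finite (repZ (dualTw p M)))
  haveI : Finite ((LC.cx ((zResR (repZ (dualTw p M)) hN).res
      ((levelComap_global T).compat q)).smooth).H 0) := finite_H_zero _
  haveI : Finite ((LC.cx ((zResR (repZ (dualTw p M)) hN).res
      ((levelComap_global T).compat q)).smooth).H 0 →+ ZMod p) :=
    Finite.of_injective (fun f => (f : _ → ZMod p)) DFunLike.coe_injective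
  -- hence `Ext²(Res N, ℚ̄_qˣ)` is finite
  haveI : Finite (((zResR (repZ (dualTw p M)) hN).res ((levelComap_global T).compat q)).Ext
      (isSmooth_primeUnitsRep q.1) 2) := Finite.of_injective _ hinj
  -- hence `H²(G_q, Hom(Res N, ℚ̄_qˣ))` is finite
  have hsmN := (zResR (repZ (dualTw p M)) hN).smoothN_loc (levelComap_global T)
    (fun q : ↥T => isSmooth_primeUnitsRep q.1) q
  haveI : Finite ((LC.cx hsmN).H 2) :=
    Finite.of_equiv _ (((zResR (repZ (dualTw p M)) hN).res
      ((levelComap_global T).compat q)).divEquiv (isSmooth_primeUnitsRep q.1) hsmN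
      (shaIdent_hsurjY p T M hN q) 2).symm.toEquiv
  -- transport along `thetaLoc`
  have hb := Cx.Hom.mapH_bijective_of_bijective
    (LC.cxMap (((isSmooth_repZ_iff (globalLevel T) M).2 hM).res ((levelComap_global T).compat q))
      hsmN (LatticeRes.thetaLoc (r := fun q : ↥T => primeLocalToGlobal q.1)
        (esToJsHom (globalLevel T) Qb (↑T : Set Nat.Primes)) (evQ (globalLevel T) T)
        (shaIdentTheta p T hpT M) q))
    (fun m => LC.cxMap_f_bijective _ _ _ (shaIdentTheta_thetaLoc_bijective p T hpT M q) m) 2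
  exact Finite.of_injective _ hb.1

include hpT hM in
/-- **`H²(G_{ℚ_q}, M)` is finite** (`q ∈ T`, level cohomology of the restriction of `M`). -/
theorem finite_H2_local (q : ↥T) :
    Finite (LC.H2 (levelOf (primeLocalToGlobal q.1)) (Rep.res (primeLocalToGlobal q.1) M)) := by
  have hN : IsSmooth (globalLevel T) (repZ (dualTw p M)) :=
    isSmooth_repZ_dualTw_of_isSmooth T M hpT hM
  haveI := finite_cxH2_local_repZ p T hpT M hM hN q
  have h2 : Finite (LC.H2 (levelOf (primeLocalToGlobal q.1))
      (Rep.res (primeLocalToGlobal q.1) (repZ M))) :=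
    Finite.of_equiv _ (LC.h2Equiv (((isSmooth_repZ_iff (globalLevel T) M).2 hM).res
      ((levelComap_global T).compat q))).toEquiv
  haveI : Finite (LC.H2 (levelOf (primeLocalToGlobal q.1))
      (repZ (Rep.res (primeLocalToGlobal q.1) M))) := h2
  exact Finite.of_equiv _
    (repZH2Equiv (levelOf (primeLocalToGlobal q.1)) (Rep.res (primeLocalToGlobal q.1) M)).symm.toEquiv

end Fermat.Agent.TW.Euler.Fin
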