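import Mathlib
import Fermat.Agent.TW.Euler.Fin.Smooth
import Fermat.Agent.TW.GWB.FinH1
import Fermat.Agent.S55.FinalPTInputs
import Fermat.Agent.CFT.PT.D3cQ
import Fermat.Agent.CFT.PT.InvCompatLocal

/-!
# PROGRAM G (S56), block GW-Euler, node FIN: `Ш²` is finite

`p` odd, `p ∈ T`, `M` a finite-dimensional `𝔽_p`-representation of `G_ℚ` smooth for
`globalLevel T`.  By Poitou–Tate (`PT.ptMain_of`, the additive equivalence
`Ш²_T(M) ≃+ Hom(Ш¹_T(M'), ℤ/p)` behind `Fermat.Agent.S55.result`) and the finiteness of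
`H¹(G_T, M')` (`GWB.finite_H1_global`), the LC Tate–Shafarevich group `shaLC₂ T M` is finite.
-/

set_option autoImplicit false
set_option linter.style.haveILetI false

open CategoryTheory Module groupCohomology ExtCitation

namespace Fermat.Agent.TW.Euler.Fin

open Fermat.Agent.CFT Fermat.Agent.CFT.PT Fermat.Agent.S55

local notation "Qb" => AlgebraicClosure ℚ
local notation "GQ" => (AlgebraicClosure ℚ ≃ₐ[ℚ] AlgebraicClosure ℚ)

attribute [local instance 2000] Rep.hV2

/-- The unconditional inputs of Poitou–Tate over `ℚ` (`p` odd, `p ∈ T`): the term used in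
`Fermat.Agent.S55.result`. -/
noncomputable def ptInputsFin {p : ℕ} [Fact p.Prime] (T : Finset Nat.Primes) (hp2 : p ≠ 2)
    (hpT : pPrime p ∈ T) : PTInputs p T :=
  PTQ.ptInputsQ_of_local T hp2 hpT (by
    have : NumberField ↥(⊥ : IntermediateField ℚ (AlgebraicClosure ℚ)) := ⟨⟩
    exact fun q l _ h _ _ N _ hN hNl hopen y =>
      galInvLevel_locFin_eq_semiLocalInv T q l h N hN hNl hopen y)

variable {p : ℕ} [Fact p.Prime] (T : Finset Nat.Primes) (hp2 : p ≠ 2) (hpT : pPrime p ∈ T)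
  (M : Rep (ZMod p) GQ) [FiniteDimensional (ZMod p) M] (hM : IsSmooth (globalLevel T) M)

include hp2 hpT hM in
/-- `Ш¹_T(M)` (level cohomology) is finite. -/
theorem finite_shaLC₁ : Finite ↥(shaLC₁ T M) := by
  haveI : Finite M := Module.finite_of_finite (ZMod p)
  haveI := GWB.finite_H1_global T hp2 hpT M hM
  infer_instance

include hp2 hpT hM in
/-- **`Ш²_T(M)` (level cohomology) is finite.** -/
theorem finite_shaLC₂ : Finite ↥(shaLC₂ T M) := by
  have hN : IsSmooth (globalLevel T) (repZ (dualTw p M)) :=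
    isSmooth_repZ_dualTw_of_isSmooth T M hpT hM
  have hM' : IsSmooth (globalLevel T) (dualTw p M) := isSmooth_dualTw_of_isSmooth T M hpT hM
  obtain ⟨e⟩ := ptMain_of (ptInputsFin T hp2 hpT) ⟨_, hpT⟩ M (dualTw p M) hN
    (nsmul_repZ_eq_zero p (dualTw p M)) (shaZ₂EquivKerLoc2 p T hpT M hM hN).symm
  haveI : Finite ↥(shaLC₁ T (dualTw p M)) := finite_shaLC₁ T hp2 hpT (dualTw p M) hM'
  haveI : Finite ↥(shaZ₁ T (dualTw p M)) :=
    Finite.of_equiv _ (shaLC₁EquivZ T (dualTw p M)).toEquiv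
  haveI : Finite (↥(shaZ₁ T (dualTw p M)) →+ ZMod p) :=
    Finite.of_injective (fun f => (f : ↥(shaZ₁ T (dualTw p M)) → ZMod p)) DFunLike.coe_injective
  haveI : Finite ↥(shaZ₂ T M) := Finite.of_equiv _ e.symm.toEquiv
  exact Finite.of_equiv _ (shaLC₂EquivZ T M).symm.toEquiv

end Fermat.Agent.TW.Euler.Fin
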