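import Mathlib
import Fermat.Agent.TW.Euler.Contracts
import Fermat.Agent.TW.Euler.Fin.Sha2
import Fermat.Agent.TW.Euler.Fin.LocalH2

/-!
# PROGRAM G (S56), block GW-Euler, node FIN: `finOut : FinOut`

`p` odd, `p ∈ T`, `M` a finite-dimensional `𝔽_p`-representation of `G_ℚ` smooth for
`globalLevel T`.

* `finite_H2_global`: `H²(G_T, M)` (level cohomology) is finite: the total localisation
  `lcLocTotal₂ T M` has finite kernel `Ш²_T(M)` (`finite_shaLC₂`, Poitou–Tate) and finite codomain
  (`finite_H2_local`, local Tate duality);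
* `finOut : FinOut` — the literal contract of `TW/Euler/Contracts.lean` (the `H¹` half is
  `GWB.finite_H1_global`).
-/

set_option autoImplicit false
set_option linter.style.haveILetI false

open CategoryTheory Module ExtCitation

namespace Fermat.Agent.TW.Euler.Fin

open Fermat.Agent.CFT Fermat.Agent.CFT.PT Fermat.Agent.S55 HExt

local notation "Qb" => AlgebraicClosure ℚ
local notation "GQ" => (AlgebraicClosure ℚ ≃ₐ[ℚ] AlgebraicClosure ℚ)

/-- An additive group is finite as soon as some homomorphism out of it has finite kernel and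
finite codomain. -/
theorem finite_of_finite_ker {A B : Type*} [AddCommGroup A] [AddCommGroup B] (f : A →+ B)
    [Finite f.ker] [Finite B] : Finite A := by
  haveI : Finite f.range := inferInstance
  haveI : Finite (A ⧸ f.ker) :=
    Finite.of_equiv _ (QuotientAddGroup.quotientKerEquivRange f).symm.toEquiv
  exact Finite.of_equiv _ (AddSubgroup.addGroupEquivQuotientProdAddSubgroup (s := f.ker)).symm

variable {p : ℕ} [Fact p.Prime] (T : Finset Nat.Primes) (hp2 : p ≠ 2) (hpT : pPrime p ∈ T)
  (M : Rep (ZMod p) GQ) [FiniteDimensional (ZMod p) M] (hM : IsSmooth (globalLevel T) M)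

include hp2 hpT hM in
/-- **`H²(G_{ℚ,T}, M)` is finite** (level cohomology). -/
theorem finite_H2_global : Finite (LC.H2 (globalLevel T) M) := by
  haveI : Finite ↥(shaLC₂ T M) := finite_shaLC₂ T hp2 hpT M hM
  haveI : Finite ↥(lcLocTotal₂ T M).toAddMonoidHom.ker :=
    Finite.of_injective (fun x => (⟨x.1, x.2⟩ : ↥(shaLC₂ T M)))
      (fun x y h => Subtype.ext (congrArg Subtype.val h))
  haveI : ∀ q : ↥T, Finite (LC.H2 (levelOf (primeLocalToGlobal q.1))
      (Rep.res (primeLocalToGlobal q.1) M)) := fun q => finite_H2_local p T hpT M hM q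
  exact finite_of_finite_ker
    (B := ∀ q : ↥T, LC.H2 (levelOf (primeLocalToGlobal q.1)) (Rep.res (primeLocalToGlobal q.1) M))
    (lcLocTotal₂ T M).toAddMonoidHom

include hp2 hpT hM in
/-- `H¹(G_{ℚ,T}, M)` is finite, cohomology of the LC complex. -/
theorem finite_cxH1_global : Finite ((LC.cx hM).H 1) := by
  haveI : Finite M := Module.finite_of_finite (ZMod p)
  haveI := GWB.finite_H1_global T hp2 hpT M hM
  exact Finite.of_equiv _ (LC.h1Equiv hM).symm.toEquiv

include hp2 hpT hM in
/-- `H²(G_{ℚ,T}, M)` is finite, cohomology of the LC complex. -/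
theorem finite_cxH2_global : Finite ((LC.cx hM).H 2) := by
  haveI := finite_H2_global T hp2 hpT M hM
  exact Finite.of_equiv _ (LC.h2Equiv hM).symm.toEquiv

/-- **FIN**: finiteness of `H¹(G_T, M)` and `H²(G_T, M)` — the literal contract `FinOut`. -/
theorem finOut : FinOut := by
  intro p _ hp2 T hpT M _ hM
  haveI := finite_cxH1_global T hp2 hpT M hM
  haveI := finite_cxH2_global T hp2 hpT M hM
  exact ⟨Module.Finite.of_finite, Module.Finite.of_finite⟩

end Fermat.Agent.TW.Euler.Fin
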